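import Fermat.Agent.MW.LocC.Wedge
import Fermat.Agent.MW.Loc.BaseHeight

/-!
# MW / LOCC 2 (pure linear algebra): volumes along a flag of kernels.

`X : Fin e → ι → K` linearly independent functionals, `t` a basis of the common kernel, `(t, u)` a basis of
`K^ι`.  `upKer X j = {s | ∀ i > j, pair s (X i) = 0}`.  Then
`vol t * |det (pair (u l) (X i))| ≍ vol (t, u) * ∏ j, opn (upKer X j) (X j)`      (`la_star`).

* `chain` : induction on `e` with `exists_baseHeight`; `Fin.append t x` for `x : Fin (e+1) → _` is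
  `Fin.snoc (Fin.append t (x ∘ castSucc)) (x (last e))`; `Fin.prod_univ_castSucc`.
* `ratio` : `G_x * H = [[t C, 0], [x C, x X]]` for `H = (C | X)`, `Matrix.det_fromBlocks_zero₁₂`; or: if `(t, u)`
  is a basis write `x = c u + (span t)`.
* `la_star` : choose `x j ∈ upKer X j` with `pair (x j) (X j) = 1` (exists as `X` is linearly independent: the map
  `s ↦ (pair s (X i))_i` is surjective), `span (t, x l : l ≤ j) = upKer X j` (triangular system), `chain`,
  `ratio` (`det (pair (x l) (X i)) = 1`: triangular), `vol_eq_det`/`vol_mulVec`.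
-/

set_option autoImplicit false

namespace Fermat.Agent.MW

variable {K : Type*} [Field K] {ι : Type*} [Fintype ι]

/-- `{s | ∀ i > j, pair s (X i) = 0}`. -/
def upKer {e : ℕ} (X : Fin e → ι → K) (j : Fin e) : Submodule K (ι → K) :=
  ⨅ i ∈ Finset.Ioi j, kerP (X i)

theorem mem_upKer {e : ℕ} {X : Fin e → ι → K} {j : Fin e} {s : ι → K} :
    s ∈ upKer X j ↔ ∀ i, j < i → pair s (X i) = 0 := by
  sorry

/-- the chain lemma. -/
theorem chain (r e : ℕ) : ∃ C : ℕ, 1 ≤ C ∧ ∀ (a : AbsoluteValue K ℝ) (t : Fin r → ι → K)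
    (x X : Fin e → ι → K), LinearIndependent K (Fin.append t x) →
    (∀ i j, pair (t i) (X j) = 0) → (∀ j, pair (x j) (X j) = 1) →
    (∀ i j, j < i → pair (x j) (X i) = 0) →
    Cmp (kap a C) (vol a t) (vol a (Fin.append t x) *
      ∏ j, opn a (Submodule.span K (Set.range t ∪ x '' Set.Iic j)) (X j)) := by
  sorry

/-- the ratio `det (t, x) / det (pair x X)` does not depend on `x`.  (`ε` identifies `ι` with
`Fin (r + e)`.) -/
theorem ratio {r e : ℕ} (ε : Fin (r + e) ≃ ι) (t : Fin r → ι → K) (x u X : Fin e → ι → K)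
    (ht : ∀ i j, pair (t i) (X j) = 0) :
    Matrix.det (Matrix.of fun i j => Fin.append t x i (ε j)) *
        Matrix.det (Matrix.of fun l i => pair (u l) (X i)) =
      Matrix.det (Matrix.of fun i j => Fin.append t u i (ε j)) *
        Matrix.det (Matrix.of fun l i => pair (x l) (X i)) := by
  sorry

/-- **LA-STAR**. -/
theorem la_star (r e : ℕ) : ∃ C : ℕ, 1 ≤ C ∧ ∀ (a : AbsoluteValue K ℝ) (t : Fin r → ι → K)
    (u X : Fin e → ι → K), LinearIndependent K (Fin.append t u) →
    Submodule.span K (Set.range (Fin.append t u)) = ⊤ →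
    (∀ i j, pair (t i) (X j) = 0) → LinearIndependent K X →
    Cmp (kap a C) (vol a t * a (Matrix.det (Matrix.of fun l i => pair (u l) (X i))))
      (vol a (Fin.append t u) * ∏ j, opn a (upKer X j) (X j)) := by
  sorry

end Fermat.Agent.MW
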