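import Fermat.Agent.MW.QAbs

/-!
# MW / LOCC 0: the relation `x ≍ y` up to a factor `c`.  Elementary real inequalities.
-/

set_option autoImplicit false

namespace Fermat.Agent.MW

/-- `x ≍ y` up to the factor `c`. -/
def Cmp (c x y : ℝ) : Prop := x ≤ c * y ∧ y ≤ c * x

namespace Cmp

variable {c c' x y z x' y' : ℝ}

theorem refl (hc : 1 ≤ c) (hx : 0 ≤ x) : Cmp c x x := by
  sorry

theorem of_eq (hc : 1 ≤ c) (hx : 0 ≤ x) (h : x = y) : Cmp c x y := by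
  sorry

theorem symm (h : Cmp c x y) : Cmp c y x := ⟨h.2, h.1⟩

theorem trans (hc : 0 ≤ c) (hc' : 0 ≤ c') (h : Cmp c x y) (h' : Cmp c' y z) : Cmp (c * c') x z := by
  sorry

theorem mono (hcc : c ≤ c') (hx : 0 ≤ x) (hy : 0 ≤ y) (h : Cmp c x y) : Cmp c' x y := by
  sorry

theorem mul (hc : 0 ≤ c) (hx : 0 ≤ x) (hy : 0 ≤ y) (hx' : 0 ≤ x') (hy' : 0 ≤ y')
    (h : Cmp c x y) (h' : Cmp c' x' y') : Cmp (c * c') (x * x') (y * y') := by
  sorry

theorem mul_left (hz : 0 ≤ z) (h : Cmp c x y) : Cmp c (z * x) (z * y) := by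
  sorry

theorem mul_right (hz : 0 ≤ z) (h : Cmp c x y) : Cmp c (x * z) (y * z) := by
  sorry

theorem of_mul_left (hz : 0 < z) (h : Cmp c (z * x) (z * y)) : Cmp c x y := by
  sorry

theorem of_mul_right (hz : 0 < z) (h : Cmp c (x * z) (y * z)) : Cmp c x y := by
  sorry

theorem pow (hc : 0 ≤ c) (hx : 0 ≤ x) (hy : 0 ≤ y) (h : Cmp c x y) (n : ℕ) :
    Cmp (c ^ n) (x ^ n) (y ^ n) := by
  sorry

/-- `x ^ n ≍ y ^ n` implies `x ≍ y` (with the same constant, if `1 ≤ c`, `1 ≤ n`). -/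
theorem of_pow (hc : 1 ≤ c) (hx : 0 ≤ x) (hy : 0 ≤ y) {n : ℕ} (hn : 1 ≤ n)
    (h : Cmp c (x ^ n) (y ^ n)) : Cmp c x y := by
  sorry

theorem pos_iff (hc : 0 ≤ c) (hx : 0 ≤ x) (hy : 0 ≤ y) (h : Cmp c x y) : 0 < x ↔ 0 < y := by
  sorry

theorem abs_log_sub_le (hx : 0 < x) (hy : 0 < y) (h : Cmp c x y) :
    |Real.log x - Real.log y| ≤ Real.log c := by
  sorry

theorem of_abs_log_sub_le (hc : 0 < c) (hx : 0 < x) (hy : 0 < y)
    (h : |Real.log x - Real.log y| ≤ Real.log c) : Cmp c x y := by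
  sorry

/-- products over a multiset of length `≤ e`. -/
theorem multiset_prod {α : Type*} (hc : 1 ≤ c) (f g : α → ℝ) (hf : ∀ a, 0 ≤ f a) (hg : ∀ a, 0 ≤ g a)
    (h : ∀ a, Cmp c (f a) (g a)) (m : Multiset α) {e : ℕ} (he : m.card ≤ e) :
    Cmp (c ^ e) (m.map f).prod (m.map g).prod := by
  sorry

theorem finset_prod {α : Type*} (s : Finset α) (κ f g : α → ℝ) (hκ : ∀ a ∈ s, 0 ≤ κ a)
    (hf : ∀ a ∈ s, 0 ≤ f a) (hg : ∀ a ∈ s, 0 ≤ g a) (h : ∀ a ∈ s, Cmp (κ a) (f a) (g a)) :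
    Cmp (∏ a ∈ s, κ a) (∏ a ∈ s, f a) (∏ a ∈ s, g a) := by
  sorry

end Cmp

/-- finitely many adelic constants can be replaced by one. -/
theorem AdC.exists_uniform {α : Type*} (s : Finset α) (p : α → Plc → ℝ → Prop)
    (hmono : ∀ a v c c', c ≤ c' → p a v c → p a v c')
    (h : ∀ a ∈ s, ∃ c : AdC, ∀ v, p a v (c.c v)) : ∃ c : AdC, ∀ a ∈ s, ∀ v, p a v (c.c v) := by
  sorry

/-- `exp` of a bound: an adelic constant `c'` with `log c' = n * log c`. -/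
theorem AdC.log_npow (κ : AdC) (n : ℕ) (v : Plc) :
    Real.log ((κ.npow n).c v) = n * Real.log (κ.c v) := by
  sorry

theorem AdC.log_mul (κ κ' : AdC) (v : Plc) :
    Real.log ((κ * κ').c v) = Real.log (κ.c v) + Real.log (κ'.c v) := by
  sorry

theorem AdC.log_nonneg (κ : AdC) (v : Plc) : 0 ≤ Real.log (κ.c v) := Real.log_nonneg (κ.one_le v)

/-- a nonzero vector of `ℚ̄^ι` has norm `1` at almost all places. -/
theorem AbsFam.exists_adc_nrm (A : AbsFam) {ι : Type*} [Fintype ι] {x : ι → Qb} (hx : x ≠ 0) :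
    ∃ c : AdC, ∀ v, Cmp (c.c v) (nrm (A.abv v) x) 1 := by
  sorry

theorem AbsFam.exists_adc_abv (A : AbsFam) {x : Qb} (hx : x ≠ 0) :
    ∃ c : AdC, ∀ v, Cmp (c.c v) (A.abv v x) 1 := by
  sorry

end Fermat.Agent.MW
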