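import Fermat.Agent.MW.Defs
import Fermat.Agent.MW.LocC.Cmp
import Fermat.Agent.MW.Loc.Opn

/-!
# MW / LOCC 1 (pure linear algebra): the norm of a functional on the kernel of another functional.

`opn (ker X) Y * nrm X ≍ wedge2 X Y`.

(≤) let `i₀` with `a (X i₀) = nrm a X`.  For `s` with `pair s X = 0`:
`X i₀ * pair s Y = ∑ i, s i * (X i₀ * Y i - X i * Y i₀)`, hence
`nrm X * a (pair s Y) ≤ kap (card ι) * nrm s * wedge2 X Y` (`abv_sum_le`).
(≥) for `(i, j)` let `s = X j • e_i - X i • e_j`: `pair s X = 0`, `pair s Y = X j * Y i - X i * Y j`,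
`nrm s ≤ nrm X` (only two nonzero coordinates; if `i = j` then `s = 0`), `abv_pair_le_opn`.
-/

set_option autoImplicit false

namespace Fermat.Agent.MW

variable {K : Type*} [Field K] (a : AbsoluteValue K ℝ) {ι : Type*} [Fintype ι]

/-- the kernel of the functional `pair · X`. -/
def kerP (X : ι → K) : Submodule K (ι → K) where
  carrier := {s | pair s X = 0}
  zero_mem' := by simp [pair]
  add_mem' := fun {s t} hs ht => by
    have hs' : pair s X = 0 := hs
    have ht' : pair t X = 0 := ht
    show pair (s + t) X = 0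
    have : pair (s + t) X = pair s X + pair t X := by
      simp [pair, add_mul, Finset.sum_add_distrib]
    rw [this, hs', ht', add_zero]
  smul_mem' := fun c s hs => by
    have hs' : pair s X = 0 := hs
    show pair (c • s) X = 0
    have : pair (c • s) X = c * pair s X := by
      simp [pair, Finset.mul_sum, mul_assoc]
    rw [this, hs', mul_zero]

theorem mem_kerP {X s : ι → K} : s ∈ kerP X ↔ pair s X = 0 := Iff.rfl

theorem wedge2_nonneg (X Y : ι → K) : 0 ≤ wedge2 a X Y := by
  sorry

theorem le_wedge2 (X Y : ι → K) (i j : ι) : a (X i * Y j - X j * Y i) ≤ wedge2 a X Y := by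
  sorry

theorem wedge2_comm (X Y : ι → K) : wedge2 a X Y = wedge2 a Y X := by
  sorry

theorem wedge2_self (X : ι → K) : wedge2 a X X = 0 := by
  sorry

/-- `wedge2 X Y > 0` if `X, Y` are linearly independent. -/
theorem wedge2_pos {X Y : ι → K} (h : LinearIndependent K ![X, Y]) : 0 < wedge2 a X Y := by
  sorry

theorem wedge2_le_opn_mul (X Y : ι → K) : wedge2 a X Y ≤ opn a (kerP X) Y * nrm a X := by
  sorry

theorem opn_mul_le_wedge2 (X Y : ι → K) :
    opn a (kerP X) Y * nrm a X ≤ kap a (Fintype.card ι) * wedge2 a X Y := by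
  sorry

end Fermat.Agent.MW
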